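/-
GATE-L / GENUS-BRIDGE (helper60), part 1: the trace duals of `GJ/J1/Defs.lean` in PLACE language.

`K` algebraically closed of characteristic zero, `s` a generator of `F / K`.

* `inDualFin_iff_valuation` : `InDualFin K s y ↔ ∀ P, v_P(y) ≤ exp (e_P - 1)` (tame different);
* `ramificationIdx_eq_ord` : `e_P = ord_v (s - c)` for the place `v` of `P` and its centre `c`;
* `inDualFin_iff_ord` : `InDualFin K s y ↔ ∀ v c, 0 < ord_v (s - c) → 1 - ord_v (s - c) ≤ ord_v y`;
* `inDualAt_iff_ord` : `InDualAt K s z ↔ ∀ v, 0 < ord_v s → 1 - ord_v s ≤ ord_v z`.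
-/
import Mathlib
import Fermat.Agent.GJ.J1.DifferentAdapter
import Fermat.Agent.GJ.J1.PlaceLattice
import Fermat.Agent.S24.Hurwitz

set_option autoImplicit false
set_option linter.unusedSectionVars false

namespace Fermat.Agent.GL.Genus

open Fermat.Agent.S24 Fermat.Agent.GJ.J1 Fermat.Agent.S24_helper6 IntermediateField
  IsDedekindDomain Polynomial WithZero AlgebraicCurve

variable {K F : Type*} [Field K] [Field F] [Algebra K F]

noncomputable local instance instAlgRxKs' (s : F) : Algebra (Rx K s) K⟮s⟯ :=
  algebraAdjoinAdjoin.instAlgebraSubtypeMemSubalgebraAdjoinAdjoin K {s}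

local instance instFracRxKs' (s : F) : IsFractionRing (Rx K s) K⟮s⟯ :=
  algebraAdjoinAdjoin.instIsFractionRingSubtypeMemSubalgebraAdjoinAdjoin K {s}

local instance instTowerRxKsF' (s : F) : IsScalarTower (Rx K s) K⟮s⟯ F :=
  algebraAdjoinAdjoin.instIsScalarTowerSubtypeMemSubalgebraAdjoinAdjoin_1 K {s} F

local instance instTowerKRxKs' (s : F) : IsScalarTower K (Rx K s) K⟮s⟯ :=
  algebraAdjoinAdjoin.instIsScalarTowerSubtypeMemSubalgebraAdjoinAdjoin K {s} K

local instance instFaithfulRxKs' (s : F) : FaithfulSMul (Rx K s) K⟮s⟯ :=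
  algebraAdjoinAdjoin.instFaithfulSMulSubtypeMemSubalgebraAdjoinAdjoin K {s}

section Fin

variable (K) (s : F) [hs : IsGen K s] [CharZero K]

/-- **The trace dual of the integral closure of `K[s]`, prime by prime** (tame different). -/
theorem inDualFin_iff_valuation (y : F) :
    InDualFin K s y ↔ ∀ P : HeightOneSpectrum (Ax K s),
      P.valuation F y ≤ exp ((P.asIdeal.ramificationIdx (Rx K s) : ℤ) - 1) := by
  rw [DiffAdapter.inDualFin_iff_mem_traceDual K s y,
    Different.mem_traceDual_one_iff (Rx K s) K⟮s⟯ F (Ax K s) y]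
  constructor
  · intro h P
    exact Different.valuation_le_ramificationIdx_of_mem_dual_one (Rx K s) K⟮s⟯ F (Ax K s)
      (DiffAdapter.charZero_quotient_Rx K s) y h P
  · exact Different.mem_dual_one_of_valuation_le_ramificationIdx (Rx K s) K⟮s⟯ F (Ax K s) y

end Fin

/-! ### ramification index = order of `s - c` -/

section Ram

variable (K) (s : F)

/-- `s - c` as an element of `K[s]`. -/
noncomputable def subR (c : K) : Rx K s := DiffAdapter.polyR K s (X - C c)

@[simp] theorem coe_subR (c : K) : ((subR K s c : Rx K s) : F) = s - algebraMap K F c := by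
  simp [subR, DiffAdapter.coe_polyR]

/-- `s - c` as an element of the integral closure. -/
noncomputable def subA (c : K) : Ax K s := algebraMap (Rx K s) (Ax K s) (subR K s c)

@[simp] theorem coe_subA (c : K) : ((subA K s c : Ax K s) : F) = s - algebraMap K F c :=
  coe_subR K s c

theorem algebraMap_subA (c : K) : algebraMap (Ax K s) F (subA K s c) = s - algebraMap K F c :=
  coe_subA K s c

variable [hs : IsGen K s]

theorem irreducible_subR (c : K) : Irreducible (subR K s c) := by
  have h := (MulEquiv.irreducible_iff
    (Polynomial.algEquivOfTranscendental K s hs.transcendental).toMulEquiv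
    (x := (Polynomial.X - Polynomial.C c : Polynomial K))).mpr (Polynomial.irreducible_X_sub_C c)
  have h2 : (Polynomial.algEquivOfTranscendental K s hs.transcendental).toMulEquiv
      (Polynomial.X - Polynomial.C c) = subR K s c := by
    apply Subtype.ext
    show ((Polynomial.algEquivOfTranscendental K s hs.transcendental (X - C c) : Rx K s) : F) = _
    rw [coe_subR, map_sub, Polynomial.algEquivOfTranscendental_apply_X]
    simp
  rwa [h2] at h

theorem subR_ne_zero (c : K) : subR K s c ≠ 0 := (irreducible_subR K s c).ne_zero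

theorem subA_ne_zero (c : K) : subA K s c ≠ 0 := by
  intro h
  apply subR_ne_zero K s c
  apply Subtype.ext
  have := congrArg (fun a : Ax K s => (a : F)) h
  simpa using this

/-- the maximal ideal `(s - c)` of `K[s]` -/
abbrev pc (c : K) : Ideal (Rx K s) := Ideal.span {subR K s c}

instance instMaximalPc (c : K) : (pc K s c).IsMaximal :=
  PrincipalIdealRing.isMaximal_of_irreducible (irreducible_subR K s c)

theorem map_pc (c : K) :
    Ideal.map (algebraMap (Rx K s) (Ax K s)) (pc K s c) = Ideal.span {subA K s c} := by
  rw [Ideal.map_span, Set.image_singleton]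
  rfl

variable [CharZero K]

theorem map_pc_ne_bot (c : K) : Ideal.map (algebraMap (Rx K s) (Ax K s)) (pc K s c) ≠ ⊥ := by
  rw [map_pc, Ne, Ideal.span_singleton_eq_bot]
  exact subA_ne_zero K s c

/-- **`e_P = ord_P (s - c)`** for the centre `c` of `P`. -/
theorem ramificationIdx_eq_ord (P : HeightOneSpectrum (Ax K s)) (c : K)
    (h : 0 < (placeOfPrime (K := K) (F := F) P).ord (s - algebraMap K F c)) :
    (P.asIdeal.ramificationIdx (Rx K s) : ℤ)
      = (placeOfPrime (K := K) (F := F) P).ord (s - algebraMap K F c) := by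
  have hmem : subA K s c ∈ P.asIdeal := by
    rw [← algebraMap_subA] at h
    exact (placeOfPrime_ord_algebraMap_pos_iff P (subA_ne_zero K s c)).mp h
  have hle : pc K s c ≤ P.asIdeal.under (Rx K s) := by
    rw [Ideal.span_le, Set.singleton_subset_iff]
    exact hmem
  have hne : P.asIdeal.under (Rx K s) ≠ ⊤ := Ideal.IsPrime.ne_top inferInstance
  have hl : P.asIdeal.LiesOver (pc K s c) := ⟨(instMaximalPc K s c).eq_of_le hne hle⟩
  rw [Ideal.IsDedekindDomain.ramificationIdx_eq_multiplicity (pc K s c) _ (map_pc_ne_bot K s c),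
    map_pc, ← algebraMap_subA, placeOfPrime_ord, P.valuation_of_algebraMap,
    P.intValuation_eq_exp_neg_multiplicity (subA_ne_zero K s c), log_exp, neg_neg]

end Ram

/-! ### the dictionary in place language -/

section Dict

variable (K) (s : F) [hs : IsGen K s] [CharZero K]

/-- `v_P(f) ≤ exp n ↔ -n ≤ ord_P f`. -/
theorem valuation_le_exp_iff_ord {B : Type*} [CommRing B] [IsDedekindDomain B] [Algebra K B]
    [Algebra B F] [IsScalarTower K B F] [IsFractionRing B F]
    (P : HeightOneSpectrum B) {f : F} (hf : f ≠ 0) (n : ℤ) :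
    P.valuation F f ≤ exp n ↔ -n ≤ (placeOfPrime (K := K) (F := F) P).ord f := by
  have h := (placeOfPrime_ord_eq_iff (K := K) P hf ((placeOfPrime (K := K) (F := F) P).ord f)).mp rfl
  rw [h, exp_le_exp]
  constructor <;> intro h' <;> omega

variable [IsAlgClosed K]

/-- **(D1)** the trace dual of the integral closure of `K[s]`, place by place:
`ord_v y ≥ -(e_v - 1)` at every zero `v` of `s - c`. -/
theorem inDualFin_iff_ord {y : F} (hy : y ≠ 0) :
    InDualFin K s y ↔ ∀ (v : Place K F) (c : K), 0 < v.ord (s - algebraMap K F c) →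
      1 - v.ord (s - algebraMap K F c) ≤ v.ord y := by
  rw [inDualFin_iff_valuation K s y]
  constructor
  · intro h v c hvc
    have hsv : s ∈ v.toValuationSubring := by
      have h1 := mem_of_ord_pos K (s - algebraMap K F c) v hvc
      have h2 := v.toValuationSubring.add_mem _ _ h1 (v.algebraMap_mem' c)
      simpa using h2
    have hB := containsB_of_mem K s v hsv
    have hP := h (primeOfPlace v hB)
    have hvP : placeOfPrime (K := K) (F := F) (primeOfPlace v hB) = v :=
      placeOfPrime_primeOfPlace v hB
    have he := ramificationIdx_eq_ord K s (primeOfPlace v hB) c (by rw [hvP]; exact hvc)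
    rw [hvP] at he
    rw [he, valuation_le_exp_iff_ord K _ hy, hvP] at hP
    omega
  · intro h P
    have hsv : s ∈ (placeOfPrime (K := K) (F := F) P).toValuationSubring := by
      have := algebraMap_mem_placeOfPrime (K := K) (F := F) P (xA K s)
      rwa [algebraMap_xA] at this
    obtain ⟨c, hc⟩ := PlaceB.exists_center (placeOfPrime (K := K) (F := F) P) s hsv
    have he := ramificationIdx_eq_ord K s P c hc
    rw [he, valuation_le_exp_iff_ord K _ hy]
    have := h (placeOfPrime (K := K) (F := F) P) c hc
    omega

omit [CharZero K] [IsAlgClosed K] in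
theorem aeval_ne_zero_of_eval {b : K[X]} (hb : b.eval 0 ≠ 0) : Polynomial.aeval s b ≠ 0 := by
  intro h
  have hb0 : b ≠ 0 := by
    rintro rfl
    simp at hb
  exact hs.transcendental ⟨b, hb0, h⟩

/-- **(D2)** the trace dual of the semilocal ring over `s = 0`, place by place:
`ord_v z ≥ -(e_v - 1)` at every zero `v` of `s`. -/
theorem inDualAt_iff_ord {z : F} (hz : z ≠ 0) :
    InDualAt K s z ↔ ∀ v : Place K F, 0 < v.ord s → 1 - v.ord s ≤ v.ord z := by
  have hs0 : s ≠ 0 := fun h => hs.transcendental (h ▸ isAlgebraic_zero)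
  constructor
  · intro h v hv
    obtain ⟨b, hb, hdual⟩ := DiffAdapter.exists_aeval_mul_inDualFin K s z h
    have hb0 := aeval_ne_zero_of_eval K s hb
    have h1 := (inDualFin_iff_ord K s (mul_ne_zero hb0 hz)).mp hdual v 0 (by simpa using hv)
    rw [v.ord_mul hb0 hz, PlaceLattice.ord_aeval_eq_zero v hv hb] at h1
    simpa using h1
  · intro h x hx
    rcases eq_or_ne x 0 with rfl | hx0
    · have : trK K s (z * 0) = 0 := by simp [trK]
      rw [this]
      exact regOver_zero s
    have hw0 : z * x ≠ 0 := mul_ne_zero hz hx0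
    have hxord := (PlaceLattice.regOver_iff_ord s hs.transcendental x).mp hx
    -- `s * w` is regular over `s = 0`
    have h1 : RegOver K s (s * (z * x)) := by
      rw [PlaceLattice.regOver_iff_ord s hs.transcendental]
      intro v hv
      rw [v.ord_mul hs0 hw0, v.ord_mul hz hx0]
      have := h v hv
      have := hxord v hv
      omega
    obtain ⟨b, hb, hreg⟩ := h1
    have hb0 := aeval_ne_zero_of_eval K s hb
    have hregord := (PlaceLattice.regFin_iff_ord s s _).mp hreg
    have hdual : InDualFin K s (Polynomial.aeval s b * (z * x)) := by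
      rw [inDualFin_iff_ord K s (mul_ne_zero hb0 hw0)]
      intro v c hvc
      rw [v.ord_mul hb0 hw0]
      rcases eq_or_ne c 0 with rfl | hc
      · have hv : 0 < v.ord s := by simpa using hvc
        rw [PlaceLattice.ord_aeval_eq_zero v hv hb, v.ord_mul hz hx0]
        have h2 := h v hv
        have h3 := hxord v hv
        have h4 : v.ord (s - algebraMap K F 0) = v.ord s := by simp
        omega
      · -- `ord_v s = 0`
        have hvs : v.ord s = 0 := by
          have hcne : algebraMap K F c ≠ 0 := by
            rwa [Ne, map_eq_zero_iff _ (algebraMap K F).injective]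
          have hsc : s - algebraMap K F c ≠ 0 := fun h0 => by simp [h0] at hvc
          have h5 : s = (s - algebraMap K F c) + algebraMap K F c := by ring
          have h6 := Hurwitz.min_le_ord_add v hsc hcne (by rw [← h5]; exact hs0)
          rw [← h5, Hurwitz.ord_algebraMap] at h6
          have h7 : 0 ≤ v.ord s := by
            have : min (v.ord (s - algebraMap K F c)) 0 = 0 := min_eq_right hvc.le
            omega
          by_contra hne
          have hpos : 0 < v.ord s := lt_of_le_of_ne h7 (Ne.symm hne)
          exact Hurwitz.not_pos_ord_sub_of_ne v s hc (by simpa using hvc)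
            (by simpa using hpos)
        have h8 := hregord v hvs.ge
        rw [v.ord_mul hb0 (mul_ne_zero hs0 hw0), v.ord_mul hs0 hw0, hvs] at h8
        omega
    have h9 := hdual 1 (regFin_one s)
    rw [mul_one, DiffAdapter.trK_mul_left_aeval] at h9
    exact ⟨b, hb, h9⟩

end Dict

end Fermat.Agent.GL.Genus
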