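/-
GATE-L / GENUS-BRIDGE (helper60), part 2: Riemann–Roch for the divisors `m • (t)_∞` in the
language of `GJ/J1/Defs.lean`:

  `dim Lfib K t m - dim OmegaTw K t m = m [F : K(t)] + 1 - gLat K t`   for EVERY `m : ℤ`,

where `OmegaTw K t m = {y | y dt ≥ m (t)_∞}` in lattice form (`InDualFin K t y` and
`InDualAt K t⁻¹ (t ^ (m + 2) * y)`).  This is `G1.index_Lfib_of_chart` + the twisted Serre duality
`BasisDual.finrank_quot_eq_finrank_dual` for the trace form.
-/
import Mathlib
import Fermat.Agent.GJ.J1.RiemannFinal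

set_option autoImplicit false
set_option linter.unusedSectionVars false

namespace Fermat.Agent.GL.Genus

open Polynomial Module WithZero IntermediateField Fermat.Agent.GJ.J1 Fermat.Agent.S20_helper1
  Fermat.Agent.GJ.J1.BasisDual Fermat.Agent.GJ.J1.Chart Fermat.Agent.GJ.J1.G1

section Def

variable (K : Type*) {F : Type*} [Field K] [Field F] [Algebra K F]

/-- `{y | div (y dt) ≥ m (t)_∞}` in lattice form. -/
def OmegaTw (t : F) (m : ℤ) : Submodule K F where
  carrier := {y | InDualFin K t y ∧ InDualAt K t⁻¹ (t ^ (m + 2) * y)}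
  zero_mem' := by
    refine ⟨fun x _ => ?_, fun x _ => ?_⟩
    · simpa [trK] using regFin_zero (K := K) t
    · simpa [trK] using regOver_zero (K := K) t⁻¹
  add_mem' := by
    rintro y z ⟨hy1, hy2⟩ ⟨hz1, hz2⟩
    refine ⟨fun x hx => ?_, fun x hx => ?_⟩
    · rw [add_mul, trK_add]; exact (hy1 x hx).add (hz1 x hx)
    · rw [mul_add, add_mul, trK_add]; exact (hy2 x hx).add (hz2 x hx)
  smul_mem' := by
    rintro c y ⟨hy1, hy2⟩
    refine ⟨fun x hx => ?_, fun x hx => ?_⟩
    · rw [smul_mul_assoc, trK_smul]; exact (hy1 x hx).smul c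
    · rw [mul_smul_comm, smul_mul_assoc, trK_smul]; exact (hy2 x hx).smul c

variable {K}

theorem mem_OmegaTw {t y : F} {m : ℤ} :
    y ∈ OmegaTw K t m ↔ InDualFin K t y ∧ InDualAt K t⁻¹ (t ^ (m + 2) * y) := Iff.rfl

end Def

section ChartForm

variable {K : Type*} [Field K] {F : Type*} [Field F] [Algebra K F] [Algebra (RatFunc K) F]
  [IsScalarTower K (RatFunc K) F] [FiniteDimensional (RatFunc K) F]
  [Algebra.IsSeparable (RatFunc K) F]
variable {t : F}

/-- **Twisted Serre duality in `Defs` language**: `h¹(O, t^m O') = dim OmegaTw K t m`. -/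
theorem finrank_quot_eq_finrank_OmegaTw (hX : algebraMap (RatFunc K) F RatFunc.X = t) (m : ℤ) :
    finrank K (F ⧸ (G1.Ofin K t ⊔ G1.Oinf K t m)) = finrank K ↥(OmegaTw K t m) := by
  classical
  have ht0 : t ≠ 0 := by
    rw [← hX]
    exact (_root_.map_ne_zero _).mpr RatFunc.X_ne_zero
  obtain ⟨ω, hω⟩ := G1.exists_isFinBasis hX
  obtain ⟨ω', hω'⟩ := G1.exists_isInfBasis hX
  have hO : G1.Ofin K t = Lfin (k := K) ω := G1.Ofin_eq_Lfin ω hω
  have hO' : ∀ n, G1.Oinf K t n = Linf (k := K) ω' n := G1.Oinf_eq_Linf hX ω' hω'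
  set B : LinearMap.BilinForm (RatFunc K) F := Algebra.traceForm (RatFunc K) F with hB
  have hβ : ∀ i j, B (ω i) (ω.traceDual j) = if i = j then 1 else 0 := fun i j =>
    Basis.trace_mul_traceDual ω i j
  have hβ' : ∀ i j, B (ω' i) (ω'.traceDual j) = if i = j then 1 else 0 := fun i j =>
    Basis.trace_mul_traceDual ω' i j
  rw [hO, hO' m, finrank_quot_eq_finrank_dual B hβ hβ' m]
  have hEq : dualFin B (Lfin (k := K) ω) ⊓ dualInf B (Linf (k := K) ω' m) (-2) = OmegaTw K t m := by
    ext y
    rw [Submodule.mem_inf, mem_dualFin, mem_dualInf, mem_OmegaTw]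
    refine and_congr ?_ ?_
    · -- finite part
      constructor
      · intro h x hx
        have hx' : x ∈ Lfin (k := K) ω := by rw [← hO]; exact hx
        have := h x hx'
        rw [trK_eq hX, regFin_algebraMap_iff hX, mul_comm]
        exact mem_Apoly.mp this
      · intro h x hx
        have hx' : RegFin K t x := by
          have : x ∈ G1.Ofin K t := by rw [hO]; exact hx
          exact this
        have := h x hx'
        rw [trK_eq hX, regFin_algebraMap_iff hX, mul_comm] at this
        exact mem_Apoly.mpr this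
    · -- infinite part
      have h2 : vI K ((RatFunc.X : RatFunc K) ^ 2) = exp (2 : ℤ) := by
        have := vI_X_zpow (k := K) 2
        rwa [zpow_ofNat] at this
      have key : ∀ x' : F, RegOver K t⁻¹ (trK K t⁻¹ (t ^ (m + 2) * y * x')) ↔
          vI K (B (t ^ m * x') y) ≤ exp (-2 : ℤ) := by
        intro x'
        have h3 : t ^ (m + 2) * y * x' = t ^ 2 * (t ^ m * x' * y) := by
          rw [zpow_add₀ ht0, zpow_ofNat]; ring
        rw [trK_inv_eq hX, regOver_inv_algebraMap_iff hX, h3, trace_sq_mul hX, map_mul, h2,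
          exp_two_mul_le_one_iff]
        rfl
      constructor
      · intro h x' hx'
        have hx : t ^ m * x' ∈ Linf (k := K) ω' m := by
          rw [← hO' m, G1.mem_Oinf]
          have : t⁻¹ ^ m * (t ^ m * x') = x' := by
            rw [← mul_assoc, inv_zpow, inv_mul_cancel₀ (zpow_ne_zero _ ht0), one_mul]
          rwa [this]
        exact (key x').2 (h _ hx)
      · intro h x hx
        have hx1 : RegOver K t⁻¹ (t⁻¹ ^ m * x) := by
          have : x ∈ G1.Oinf K t m := by rw [hO' m]; exact hx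
          exact this
        have := (key _).1 (h _ hx1)
        have h4 : t ^ m * (t⁻¹ ^ m * x) = x := by
          rw [← mul_assoc, inv_zpow, mul_inv_cancel₀ (zpow_ne_zero _ ht0), one_mul]
        rwa [h4] at this
  rw [hEq]

/-- **Riemann–Roch for `m • (t)_∞`, chart form.** -/
theorem finrank_Lfib_sub_finrank_OmegaTw_of_chart [IsAlgClosed K]
    (hX : algebraMap (RatFunc K) F RatFunc.X = t) (m : ℤ) :
    (finrank K ↥(Lfib K t m) : ℤ) - finrank K ↥(OmegaTw K t m)
      = m * finrank (RatFunc K) F + 1 - gLat K t := by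
  rw [← finrank_quot_eq_finrank_OmegaTw hX m]
  exact (index_Lfib_of_chart (K := K) hX m).2

end ChartForm

section Final

variable {K : Type*} [Field K] {F : Type*} [Field F] [Algebra K F]

/-- **Riemann–Roch for `m • (t)_∞`**, instance-free: for every `m : ℤ`,
`dim Lfib K t m - dim OmegaTw K t m = m [F : K(t)] + 1 - gLat K t`. -/
theorem finrank_Lfib_sub_finrank_OmegaTw [IsAlgClosed K] (t : F) (ht : Transcendental K t)
    [FiniteDimensional K⟮t⟯ F] [Algebra.IsSeparable K⟮t⟯ F] (m : ℤ) :
    (finrank K ↥(Lfib K t m) : ℤ) - finrank K ↥(OmegaTw K t m)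
      = m * finrank K⟮t⟯ F + 1 - gLat K t := by
  let _ := chartAlgebra t ht
  have := chartAlgebra_isScalarTower t ht
  have := chartAlgebra_finiteDimensional t ht
  have := chartAlgebra_isSeparable t ht
  have hX := chartAlgebra_X t ht
  have hN := chartAlgebra_finrank t ht
  rw [← hN]
  exact finrank_Lfib_sub_finrank_OmegaTw_of_chart (K := K) (F := F) hX m

end Final

end Fermat.Agent.GL.Genus
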