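/-
GATE-L / GENUS-BRIDGE (helper60), part 3: the HURWITZ FORMULA for the Riemann–Roch genus
`genusRR K F` (= lattice genus `gLat K t`), in the `FibreData` shape of `S24/Hurwitz.lean`:

  `2 * genusRR K F - 2 = ∑ c ∈ B, (n - #fibre c) - n - #fibre ∞`.

`K` algebraically closed of characteristic zero, `t` a generator.  Route: Riemann–Roch for
`m • (t)_∞` (`TwistedSerre.lean`), the dictionary `OmegaTw K t m = L(R - (m+2) (t)_∞)` with `R` the
ramification divisor (`DualPlace.lean`), and Riemann's theorem for `L(D)`, `deg D` large.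
-/
import Mathlib
import Fermat.Agent.GL.Genus.DualPlace
import Fermat.Agent.GL.Genus.TwistedSerre
import Fermat.Agent.GJ.J1.GenusBridge2
import Fermat.Agent.S24.FF1
import Fermat.Agent.RR_helper45.Finite

set_option autoImplicit false
set_option linter.unusedSectionVars false

noncomputable section

namespace Fermat.Agent.GL.Genus

open AlgebraicCurve IntermediateField Module Fermat.Agent.S24 Fermat.Agent.GJ.J1
  Fermat.Agent.GJ.J1.InstGen Fermat.Agent.RRh45 Fermat.Agent.RR.Bound

variable {K F : Type*} [Field K] [Field F] [Algebra K F]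

/-- `R` is a ramification divisor of the chart `t`: `R v = e_v - 1` at every place. -/
structure IsRamDiv (t : F) (R : Divisor K F) : Prop where
  fin : ∀ (v : Place K F) (c : K), 0 < v.ord (t - algebraMap K F c) →
    R v = v.ord (t - algebraMap K F c) - 1
  inf : ∀ v : Place K F, v.ord t < 0 → R v = -v.ord t - 1

section Dict

variable [IsAlgClosed K] [CharZero K] (t : F) [ht : IsGen K t] [HasPrincipalDivisors K F]

/-- **the twisted differentials as a Riemann–Roch space**:
`OmegaTw K t m = L(R - (m + 2) (t)_∞)`. -/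
theorem OmegaTw_eq_riemannRochSpace {R : Divisor K F} (hR : IsRamDiv t R) (m : ℤ) :
    OmegaTw K t m = riemannRochSpace (R - (m + 2) • poleDiv K t) := by
  have htr : Transcendental K t := ht.transcendental
  have ht0 : t ≠ 0 := fun h => htr (h ▸ isAlgebraic_zero)
  have hinvgen : IsGen K t⁻¹ := FF1.isGen_inv t
  ext y
  rcases eq_or_ne y 0 with rfl | hy
  · simp
  have hz : t ^ (m + 2) * y ≠ 0 := mul_ne_zero (zpow_ne_zero _ ht0) hy
  rw [mem_OmegaTw, inDualFin_iff_ord K t hy, inDualAt_iff_ord K t⁻¹ hz,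
    mem_riemannRochSpace_iff]
  have hE : ∀ v : Place K F, (R - (m + 2) • poleDiv K t) v
      = R v - (m + 2) * max (-(v.ord t)) 0 := fun v => by
    rw [Finsupp.sub_apply, Finsupp.smul_apply, poleDiv_apply ht0, smul_eq_mul]
  have hordz : ∀ v : Place K F, v.ord (t ^ (m + 2) * y) = (m + 2) * v.ord t + v.ord y := fun v => by
    rw [v.ord_mul (zpow_ne_zero _ ht0) hy, v.ord_zpow]
  constructor
  · rintro ⟨h1, h2⟩ v
    right
    rw [hE]
    rcases PlaceB.pole_or_center v t with hv | ⟨c, hc⟩
    · have h3 := h2 v (by rw [v.ord_inv]; omega)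
      rw [hordz, v.ord_inv] at h3
      rw [hR.inf v hv, max_eq_left (by omega)]
      linarith
    · have h0 : 0 ≤ v.ord t := PlaceLattice.ord_nonneg_of_sub_const v hc
      have h3 := h1 v c hc
      rw [hR.fin v c hc, max_eq_right (by omega)]
      linarith
  · intro h
    refine ⟨fun v c hc => ?_, fun v hv => ?_⟩
    · have h0 : 0 ≤ v.ord t := PlaceLattice.ord_nonneg_of_sub_const v hc
      have h3 := (h v).resolve_left hy
      rw [hE, hR.fin v c hc, max_eq_right (by omega)] at h3
      linarith
    · rw [v.ord_inv] at hv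
      have hv' : v.ord t < 0 := by omega
      have h3 := (h v).resolve_left hy
      rw [hE, hR.inf v hv', max_eq_left (by omega)] at h3
      rw [hordz, v.ord_inv]
      linarith

end Dict

/-! ### existence and degree of the ramification divisor -/

section Degree

variable [IsAlgClosed K] (t : F) [ht : IsGen K t]

omit [IsAlgClosed K] ht in
/-- a ramification divisor exists as soon as `t` is unramified outside a finite set `B`. -/
theorem exists_isRamDiv {n : ℕ} (Φ : Hurwitz.FibreData (K := K) t n) (B : Finset K)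
    (hB : ∀ c, c ∉ B → (Φ.fin c).card = n) : ∃ R : Divisor K F, IsRamDiv t R := by
  classical
  let f : Place K F → ℤ := fun v =>
    if v.ord t < 0 then -v.ord t - 1
    else if h : ∃ c : K, 0 < v.ord (t - algebraMap K F c) then
      v.ord (t - algebraMap K F h.choose) - 1 else 0
  have hfin : ∀ (v : Place K F) (c : K), 0 < v.ord (t - algebraMap K F c) →
      f v = v.ord (t - algebraMap K F c) - 1 := by
    intro v c hc
    have hnp : ¬ v.ord t < 0 := fun hlt => Hurwitz.not_pos_ord_sub_of_ord_neg v t c hlt hc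
    have hex : ∃ c : K, 0 < v.ord (t - algebraMap K F c) := ⟨c, hc⟩
    have hcc : hex.choose = c := by
      by_contra hne
      exact Hurwitz.not_pos_ord_sub_of_ne v t hne hex.choose_spec hc
    simp only [f, if_neg hnp, dif_pos hex, hcc]
  have hinf : ∀ v : Place K F, v.ord t < 0 → f v = -v.ord t - 1 := fun v hv => by
    simp only [f, if_pos hv]
  refine ⟨Finsupp.onFinset (Φ.inf ∪ B.biUnion Φ.fin) f ?_, ⟨fun v c hc => ?_, fun v hv => ?_⟩⟩
  · intro v hv
    rcases Φ.cases v with h | ⟨c, hc⟩
    · exact Finset.mem_union_left _ h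
    · by_cases hcB : c ∈ B
      · exact Finset.mem_union_right _ (Finset.mem_biUnion.mpr ⟨c, hcB, hc⟩)
      · exfalso
        apply hv
        rw [hfin v c ((Φ.mem_fin c v).mp hc), Φ.ord_eq_one_of_card_eq (hB c hcB) hc]
        simp
  · rw [Finsupp.onFinset_apply]; exact hfin v c hc
  · rw [Finsupp.onFinset_apply]; exact hinf v hv

/-- the degree of a ramification divisor from the fibre data. -/
theorem IsRamDiv.degree_eq {R : Divisor K F} (hR : IsRamDiv t R) {n : ℕ}
    (Φ : Hurwitz.FibreData (K := K) t n) (B : Finset K)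
    (hB : ∀ c, c ∉ B → (Φ.fin c).card = n) :
    Divisor.degree R = ∑ c ∈ B, ((n : ℤ) - (Φ.fin c).card) + n - Φ.inf.card := by
  classical
  set s : Finset (Place K F) := Φ.inf ∪ B.biUnion Φ.fin with hs
  have hsupp : R.support ⊆ s := by
    intro v hv
    rw [Finsupp.mem_support_iff] at hv
    rcases Φ.cases v with h | ⟨c, hc⟩
    · exact Finset.mem_union_left _ h
    · by_cases hcB : c ∈ B
      · exact Finset.mem_union_right _ (Finset.mem_biUnion.mpr ⟨c, hcB, hc⟩)
      · exfalso
        apply hv
        rw [hR.fin v c ((Φ.mem_fin c v).mp hc), Φ.ord_eq_one_of_card_eq (hB c hcB) hc]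
        simp
  rw [Hurwitz.degree_eq_sum_of_deg_one R s hsupp (fun v => PlaceB.deg_eq_one v t), hs]
  have hdisj : Disjoint Φ.inf (B.biUnion Φ.fin) := by
    rw [Finset.disjoint_biUnion_right]
    exact fun c _ => Φ.disjoint_inf_fin c
  rw [Finset.sum_union hdisj, Finset.sum_biUnion]
  · have h1 : ∑ v ∈ Φ.inf, R v = (n : ℤ) - Φ.inf.card := by
      have : ∀ v ∈ Φ.inf, R v = -v.ord t - 1 := fun v hv => hR.inf v ((Φ.mem_inf v).mp hv)
      rw [Finset.sum_congr rfl this, Finset.sum_sub_distrib, Finset.sum_neg_distrib, Φ.sum_inf]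
      simp
    have h2 : ∀ c ∈ B, ∑ v ∈ Φ.fin c, R v = (n : ℤ) - (Φ.fin c).card := fun c _ => by
      have : ∀ v ∈ Φ.fin c, R v = v.ord (t - algebraMap K F c) - 1 := fun v hv =>
        hR.fin v c ((Φ.mem_fin c v).mp hv)
      rw [Finset.sum_congr rfl this, Finset.sum_sub_distrib, Φ.sum_fin]
      simp
    rw [h1, Finset.sum_congr rfl h2]
    ring
  · intro c _ c' _ hcc
    exact Φ.disjoint_fin hcc

variable [CharZero K]

/-- the `n` of any fibre data of `t` is `[F : K(t)]`. -/
theorem fibreData_eq_finrank {n : ℕ} (Φ : Hurwitz.FibreData (K := K) t n) :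
    n = finrank K⟮t⟯ F := by
  have h1 := Φ.sum_fin 0
  have h2 := (FF1.fibreData (K := K) t).sum_fin 0
  have hset : Φ.fin 0 = (FF1.fibreData (K := K) t).fin 0 := by
    ext v
    rw [Φ.mem_fin, (FF1.fibreData (K := K) t).mem_fin]
  rw [hset, h2] at h1
  exact_mod_cast h1.symm

end Degree

/-! ### Hurwitz -/

section Main

variable [IsAlgClosed K] [CharZero K] (t : F) [ht : IsGen K t]
  [FiniteResidues K F] [HasPrincipalDivisors K F] [Nonempty (Place K F)]

/-- **deg (ramification divisor) = 2 g - 2 + 2 [F : K(t)]** for the Riemann–Roch genus. -/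
theorem IsRamDiv.degree_eq_genusRR {R : Divisor K F} (hR : IsRamDiv t R) :
    Divisor.degree R = 2 * genusRR K F - 2 + 2 * (finrank K⟮t⟯ F : ℤ) := by
  have htr : Transcendental K t := ht.transcendental
  have hch0 : CharZero K⟮t⟯ := charZero_of_injective_algebraMap (algebraMap K K⟮t⟯).injective
  have hsep : Algebra.IsSeparable K⟮t⟯ F := inferInstance
  have hg : genusRR K F = (gLat K t : ℤ) := G0Genus.genusRR_eq_gLat_of_separable t htr
  set N : ℕ := finrank K⟮t⟯ F with hN
  have hNpos : (1 : ℤ) ≤ N := by exact_mod_cast (Module.finrank_pos : 0 < finrank K⟮t⟯ F)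
  set k : ℕ := (boundRR K F - Divisor.degree R).toNat with hk
  set m : ℤ := -((k : ℤ) + 2) with hm
  have hdegP : Divisor.degree (poleDiv K t) = N := by
    have := G0Genus.degree_nsmul_poleDiv (K := K) t 1
    simpa using this
  have hE : Divisor.degree (R - (m + 2) • poleDiv K t) = Divisor.degree R + k * N := by
    rw [map_sub, map_zsmul, hdegP, hm, smul_eq_mul]
    ring
  have hbound : boundRR K F ≤ Divisor.degree (R - (m + 2) • poleDiv K t) := by
    rw [hE]
    have h1 := Int.self_le_toNat (boundRR K F - Divisor.degree R)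
    have h2 : (0 : ℤ) ≤ k := Int.natCast_nonneg _
    nlinarith
  have hΩ : (finrank K ↥(OmegaTw K t m) : ℤ) = Divisor.degree R + k * N + 1 - gLat K t := by
    rw [OmegaTw_eq_riemannRochSpace t hR m,
      G0Genus.finrank_riemannRochSpace_eq_gLat t htr hbound, hE]
  have hL : finrank K ↥(Lfib K t m) = 0 := by
    have hneg : Divisor.degree (m • poleDiv K t) < 0 := by
      rw [map_zsmul, hdegP, hm, smul_eq_mul]
      have h2 : (0 : ℤ) ≤ k := Int.natCast_nonneg _
      nlinarith
    rw [PlaceLattice.Lfib_eq_riemannRochSpace t htr m, riemannRochSpace_eq_bot_of_degree_neg hneg,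
      finrank_bot]
  have hRR := finrank_Lfib_sub_finrank_OmegaTw (K := K) t htr m
  rw [hL, hΩ, hm] at hRR
  push_cast at hRR
  rw [hg]
  linarith

/-- **HURWITZ for the Riemann–Roch genus**, in the `FibreData` shape of `S24/Hurwitz.lean`
(`genus_eq_of_hurwitz`): `B` a finite set of values outside of which `t` is unramified. -/
theorem two_mul_genusRR_sub_two {n : ℕ} (Φ : Hurwitz.FibreData (K := K) t n) (B : Finset K)
    (hB : ∀ c, c ∉ B → (Φ.fin c).card = n) :
    2 * genusRR K F - 2 = ∑ c ∈ B, ((n : ℤ) - (Φ.fin c).card) - n - Φ.inf.card := by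
  obtain ⟨R, hR⟩ := exists_isRamDiv t Φ B hB
  have h1 := hR.degree_eq t Φ B hB
  have h2 := hR.degree_eq_genusRR t
  have hn := fibreData_eq_finrank t Φ
  rw [← hn] at h2
  linarith

end Main

end Fermat.Agent.GL.Genus
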