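/-
GATE-L / GENUS-BRIDGE (helper60), part 4: **the genus formula for the Riemann–Roch genus**
`genusRR Kbar (FN N)` of the modular function field of `X₀(N)`:

  `(genusRR Kbar (FN N) : ℚ) = ModularCurve.genusFormula N`,

the twin of S24 (`AlgebraicCurve.genus`, = `deg (div ω) / 2 + 1`) for Riemann's constant
(`genusRR = gLat`, the genus that the `J1` / `GATE-K` reduction machinery speaks about).
Inputs: the lattice Hurwitz formula `two_mul_genusRR_sub_two` (`LatticeHurwitz.lean`) and the four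
fibre counts of S24 (`InteriorCounts`, `CuspFinal`, `m9`).

Corollary (`node_count_genusRR`): for a prime `q ∤ M` with `nuTwo M = nuThree M = 0`,
`12 * (1 + g(qM) - 2 g(M)) = (q - 1) ψ(M)` for `g = genusRR`.
-/
import Mathlib
import Fermat.Agent.GL.Genus.LatticeHurwitz
import Fermat.Agent.S24.AsmCounts
import Fermat.Agent.S24.InteriorCounts
import Fermat.Agent.S24.CuspFinal
import Fermat.Agent.GK.Flat.GenusIneq

set_option autoImplicit false
set_option linter.unusedSectionVars false

noncomputable section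

namespace Fermat.Agent.GL.Genus

open AlgebraicCurve IntermediateField ModularCurve Fermat.Agent.S24
  Fermat.Agent.GJ.J1.InstGen Fermat.Agent.RRh45
open scoped MatrixGroups

section Abstract

variable {K F : Type*} [Field K] [Field F] [Algebra K F] [IsAlgClosed K] [CharZero K]
  (t : F) [ht : IsGen K t] [FiniteResidues K F] [HasPrincipalDivisors K F] [Nonempty (Place K F)]

/-- **abstract final step** for the Riemann–Roch genus (twin of `FinalB.genus_of_counts'`). -/
theorem genusRR_of_counts {n : ℕ} (Φ : Hurwitz.FibreData (K := K) t n)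
    {c₁ c₂ : K} (hc : c₁ ≠ c₂) {r₁ r₂ rinf : ℕ}
    (hgen : ∀ c, c ≠ c₁ → c ≠ c₂ → Nat.card (Fibre K (t - algebraMap K F c)) = n)
    (h₁ : Nat.card (Fibre K (t - algebraMap K F c₁)) = r₁)
    (h₂ : Nat.card (Fibre K (t - algebraMap K F c₂)) = r₂)
    (hinfty : Nat.card (Fibre K t⁻¹) = rinf)
    {g : ℕ} (hg : (2 * g : ℤ) - 2 = (n : ℤ) - r₁ - r₂ - rinf) :
    genusRR K F = g := by
  classical
  have h := two_mul_genusRR_sub_two t Φ {c₁, c₂} (fun c hcB => by
    simp only [Finset.mem_insert, Finset.mem_singleton, not_or] at hcB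
    rw [Φ.card_fin, hgen c hcB.1 hcB.2])
  rw [Finset.sum_pair hc, Φ.card_fin, Φ.card_fin, Φ.card_inf, h₁, h₂, hinfty] at h
  omega

end Abstract

section Modular

variable (N : ℕ) [NeZero N] [FiniteResidues Kbar (FN N)] [HasPrincipalDivisors Kbar (FN N)]
  [Nonempty (Place Kbar (FN N))]

/-- **the genus formula for the Riemann–Roch genus of `X₀(N)`** (twin of S24). -/
theorem genusRR_FN : (genusRR Kbar (FN N) : ℚ) = genusFormula N := by
  classical
  obtain ⟨hx, hfd, hdeg⟩ := Fermat.Agent.S24_helper62.m9 N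
  haveI hgenr : IsGen Kbar (jF N) := ⟨hx, hfd⟩
  obtain ⟨hcardI, hS, hST, hT⟩ := Comb.m11 N
  obtain ⟨heven, hnonneg⟩ := Ree.m12 (I0 N) (permOf N ModularGroup.S) (permOf N ModularGroup.T)
    (Final.transitive_I0 N)
  rw [← Final.permOf_mul, hcardI] at heven hnonneg
  obtain ⟨k, hk⟩ := heven
  have hne : (0 : Kbar) ≠ 1728 := by norm_num
  have hk1 : 0 ≤ k + 1 := by omega
  have hkn : (((k + 1).toNat : ℕ) : ℤ) = k + 1 := Int.toNat_of_nonneg hk1
  have hg : (2 * ((k + 1).toNat : ℕ) : ℤ) - 2 = (dedekindPsi N : ℤ)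
      - numOrbits (permOf N (ModularGroup.S * ModularGroup.T))
      - numOrbits (permOf N ModularGroup.S) - numOrbits (permOf N ModularGroup.T) := by
    rw [hkn]; omega
  have hgenus := genusRR_of_counts (jF N) (hdeg ▸ FF1.fibreData (jF N)) hne
    (InteriorCounts.hgen N) (InteriorCounts.h0 N) (InteriorCounts.h1728 N)
    (CuspFinal.hinfty N) hg
  rw [hgenus, Int.cast_natCast]
  exact GenusArith.cast_eq_genusFormula N rfl hST hS hT hg

/-- the Riemann–Roch genus of `X₀(N)` is a natural number. -/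
theorem genusRR_FN_nonneg : 0 ≤ genusRR Kbar (FN N) := by
  classical
  obtain ⟨hx, hfd, hdeg⟩ := Fermat.Agent.S24_helper62.m9 N
  haveI hgenr : IsGen Kbar (jF N) := ⟨hx, hfd⟩
  obtain ⟨hcardI, hS, hST, hT⟩ := Comb.m11 N
  obtain ⟨heven, hnonneg⟩ := Ree.m12 (I0 N) (permOf N ModularGroup.S) (permOf N ModularGroup.T)
    (Final.transitive_I0 N)
  rw [← Final.permOf_mul, hcardI] at heven hnonneg
  obtain ⟨k, hk⟩ := heven
  have hne : (0 : Kbar) ≠ 1728 := by norm_num
  have hk1 : 0 ≤ k + 1 := by omega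
  have hkn : (((k + 1).toNat : ℕ) : ℤ) = k + 1 := Int.toNat_of_nonneg hk1
  have hg : (2 * ((k + 1).toNat : ℕ) : ℤ) - 2 = (dedekindPsi N : ℤ)
      - numOrbits (permOf N (ModularGroup.S * ModularGroup.T))
      - numOrbits (permOf N ModularGroup.S) - numOrbits (permOf N ModularGroup.T) := by
    rw [hkn]; omega
  have hgenus := genusRR_of_counts (jF N) (hdeg ▸ FF1.fibreData (jF N)) hne
    (InteriorCounts.hgen N) (InteriorCounts.h0 N) (InteriorCounts.h1728 N)
    (CuspFinal.hinfty N) hg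
  rw [hgenus]
  exact Int.natCast_nonneg _

end Modular

section NodeCount

open Fermat.Agent.GK.Flat.GenusIneq

/-- **the node count for the Riemann–Roch genus** (rational form, no hypothesis on elliptic
points): `1 + g(qM) - 2 g(M)` in closed form. -/
theorem node_count_genusRR_rat {q M : ℕ} (hq : q.Prime) (h : ¬ q ∣ M) [NeZero M] [NeZero (q * M)]
    [FiniteResidues Kbar (FN M)] [HasPrincipalDivisors Kbar (FN M)] [Nonempty (Place Kbar (FN M))]
    [FiniteResidues Kbar (FN (q * M))] [HasPrincipalDivisors Kbar (FN (q * M))]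
    [Nonempty (Place Kbar (FN (q * M)))] :
    1 + (genusRR Kbar (FN (q * M)) : ℚ) - 2 * (genusRR Kbar (FN M) : ℚ)
      = ((q : ℚ) - 1) * (dedekindPsi M : ℚ) / 12
        + (2 - (nuTwo q : ℚ)) * (nuTwo M : ℚ) / 4
        + (2 - (nuThree q : ℚ)) * (nuThree M : ℚ) / 3 := by
  rw [genusRR_FN, genusRR_FN]
  exact node_count_eq hq h

/-- **`12 (1 + g(qM) - 2 g(M)) = (q - 1) ψ(M)`** for the Riemann–Roch genus, when `M` has no
elliptic points (`nuTwo M = nuThree M = 0`, e.g. an auxiliary prime `r ≡ 11 mod 12` divides `M`). -/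
theorem node_count_genusRR {q M : ℕ} (hq : q.Prime) (h : ¬ q ∣ M) [NeZero M] [NeZero (q * M)]
    [FiniteResidues Kbar (FN M)] [HasPrincipalDivisors Kbar (FN M)] [Nonempty (Place Kbar (FN M))]
    [FiniteResidues Kbar (FN (q * M))] [HasPrincipalDivisors Kbar (FN (q * M))]
    [Nonempty (Place Kbar (FN (q * M)))]
    (h2 : nuTwo M = 0) (h3 : nuThree M = 0) :
    12 * (1 + genusRR Kbar (FN (q * M)) - 2 * genusRR Kbar (FN M))
      = ((q : ℤ) - 1) * (dedekindPsi M : ℤ) := by
  have key := node_count_genusRR_rat hq h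
  rw [h2, h3] at key
  have : ((12 * (1 + genusRR Kbar (FN (q * M)) - 2 * genusRR Kbar (FN M)) : ℤ) : ℚ)
      = ((((q : ℤ) - 1) * (dedekindPsi M : ℤ) : ℤ) : ℚ) := by
    push_cast
    linarith
  exact_mod_cast this

/-- the same with the level written `M * q` (the shape `FN (N' * ℓ)` of `GATE-K`). -/
theorem node_count_genusRR' {q M : ℕ} (hq : q.Prime) (h : ¬ q ∣ M) [NeZero M] [NeZero (M * q)]
    [FiniteResidues Kbar (FN M)] [HasPrincipalDivisors Kbar (FN M)] [Nonempty (Place Kbar (FN M))]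
    [FiniteResidues Kbar (FN (M * q))] [HasPrincipalDivisors Kbar (FN (M * q))]
    [Nonempty (Place Kbar (FN (M * q)))]
    (h2 : nuTwo M = 0) (h3 : nuThree M = 0) :
    12 * (1 + genusRR Kbar (FN (M * q)) - 2 * genusRR Kbar (FN M))
      = ((q : ℤ) - 1) * (dedekindPsi M : ℤ) := by
  have hc : q.Coprime M := (Nat.Prime.coprime_iff_not_dvd hq).mpr h
  have e1 : (genusRR Kbar (FN (M * q)) : ℚ) = genusFormula (M * q) := genusRR_FN (M * q)
  have e2 : (genusRR Kbar (FN M) : ℚ) = genusFormula M := genusRR_FN M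
  have key := node_count_eq hq h
  rw [Nat.mul_comm q M, h2, h3] at key
  have : ((12 * (1 + genusRR Kbar (FN (M * q)) - 2 * genusRR Kbar (FN M)) : ℤ) : ℚ)
      = ((((q : ℤ) - 1) * (dedekindPsi M : ℤ) : ℤ) : ℚ) := by
    push_cast
    rw [e1, e2]
    linarith
  exact_mod_cast this

end NodeCount

end Fermat.Agent.GL.Genus
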