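/-
GATE-L / GENUS-RED (helper60), part 1: **the Riemann–Roch genus is preserved by good reduction**:

  `genusRR Kbar (FN M) = genusRR 𝕜 (FresBar M A)`   (`ℓ ∤ M`, `A | ℓ`; `3 ∣ M` if `ℓ = 2`,
  `2 ∣ M` if `ℓ = 3`),

the chart-free form of J1's `gLat K t = gLat k t~` (`GJ/J1/GenusEq.genusRR_eq_genusRR`), instantiated
at the concrete reduction datum `redDataBar M A` exactly as `GJ/S37/LSpaceGateBar.lSpaceGate`.
-/
import Fermat.Agent.GJ.S37.LSpaceGateBar

set_option autoImplicit false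
set_option linter.unusedSectionVars false

noncomputable section

namespace Fermat.Agent.GL.Genus

open ModularCurve Polynomial IntermediateField AlgebraicCurve Module
open Fermat.Agent.S24 Fermat.Agent.RRh45 Fermat.Agent.GJ.J1 Fermat.Agent.GJ.J1.Val
open Fermat.Agent.GJ.J1.Haupt Fermat.Agent.GJ.J1.DiffAdapter Fermat.Agent.GJ.J1.AbsCore
open Fermat.Agent.GJ.J1.InstGen

section Abstract

variable {K F k Ft : Type*} [Field K] [Field F] [Algebra K F] [Field k] [Field Ft] [Algebra k Ft]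
variable [IsAlgClosed K] [CharZero K] [IsAlgClosed k] (p : ℕ) [Fact p.Prime] [CharP k p]
  (x₀ : F) [IsGen K x₀]
variable [FiniteResidues K F] [HasPrincipalDivisors K F] [Nonempty (Place K F)]
variable [FiniteResidues k Ft] [HasPrincipalDivisors k Ft] [Nonempty (Place k Ft)]

include x₀ in
/-- **genus preservation from the primitive hypotheses of J1's Layer B** (twin of
`S37LSpaceGateBar.lSpaceHyp_of_primitives`). -/
theorem genusRR_eq_of_primitives (R : RedData K F k Ft)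
    (hunram : ∀ x : F, x ≠ 0 → ∃ c : K, c ≠ 0 ∧
      x / algebraMap K F c ∈ R.Rw ∧ (x / algebraMap K F c)⁻¹ ∈ R.Rw)
    {t : F} (ht : t ∈ R.Rw) (htr : Transcendental k (R.red ⟨t, ht⟩))
    (hdeg : finrank K⟮t⟯ F ≤ finrank k⟮R.red ⟨t, ht⟩⟯ Ft)
    (β : R.A) (hβ : R.res β ≠ 0)
    (hbr : PlaceBranch K t (X * (X - Polynomial.C (β : K))))
    (ι : Ft →ₐ[k] LaurentSeries k) (hord : ¬ (p : ℤ) ∣ (ι (R.red ⟨t, ht⟩)).order) :
    genusRR K F = genusRR k Ft := by
  have hgc : R.IsGaussChart t := ⟨ht, htr⟩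
  have htK : Transcendental K t := IntRed.transcendental_of_isGaussChart hgc
  have hti : t⁻¹ ∈ R.Rw := (Select.isGaussChart_inv hgc).fst
  have hfdK : FiniteDimensional K⟮t⟯ F := (IsGen.of_transcendental x₀ htK).finite
  obtain ⟨hfdk, -⟩ := Fermat.Agent.GJ.S37.ResDeg.RedData.finrank_red_le R ht htr
  have hexp : ExpChar k p := ExpChar.prime Fact.out
  have hperf : PerfectRing k p := PerfectField.toPerfectRing p
  have hsepK : Algebra.IsSeparable K⟮t⟯ F :=
    Fermat.Agent.GJ.J1.G1.isSeparable_adjoin_of_charZero t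
  have hsepk : Algebra.IsSeparable k⟮R.red ⟨t, ht⟩⟯ Ft :=
    Fermat.Agent.GJ.J1.G1.isSeparable_adjoin_of_embedding p ι (R.red ⟨t, ht⟩) hord
  have hR : ResData R.A R.Rw R.res R.red := ResData.ofRedData R hunram
  have horth : Orth R.A R.Rw := R.orth_of_finrank_le t ht htr hdeg
  have hG : R.RedRegFin t := R.redRegFin_of_finrank_le t ht htr hdeg
  have hGi : R.RedRegFin t⁻¹ := R.redRegFin_inv_of_finrank_le t ht hti htr hdeg
  have hgle : gLat K t ≤ gLat k (R.red ⟨t, ht⟩) :=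
    R.gLat_le_of_beta hR horth ht htr hG hGi β hβ hbr
  exact G0Genus.genusRR_eq_genusRR R ht hti htr hdeg hgle

end Abstract

section Concrete

variable (N : ℕ) [NeZero N] (A : ValuationSubring Kbar)
variable [FiniteResidues Kbar (FN N)] [HasPrincipalDivisors Kbar (FN N)]
  [Nonempty (Place Kbar (FN N))]
variable [FiniteResidues (IsLocalRing.ResidueField A) (FresBar N A)]
  [HasPrincipalDivisors (IsLocalRing.ResidueField A) (FresBar N A)]
  [Nonempty (Place (IsLocalRing.ResidueField A) (FresBar N A))]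

local notation "𝕜" => IsLocalRing.ResidueField A

/-- genus preservation for the concrete reduction datum, from a chart. -/
theorem genusRR_eq_of_chart_bar {ℓ : ℕ} [Fact ℓ.Prime] (hA : A.LiesOverPrime ℓ)
    {t : FN N} (hgc : (redDataBar N A).IsGaussChart t)
    (hdeg : finrank Kbar⟮t⟯ (FN N) ≤
      finrank 𝕜⟮(redDataBar N A).red ⟨t, hgc.1⟩⟯ (FresBar N A))
    (β : A) (hβ : (redDataBar N A).res β ≠ 0)
    (hbr : PlaceBranch Kbar t (X * (X - Polynomial.C (β : Kbar))))
    (hord : ¬ (ℓ : ℤ) ∣ ((FresBar N A).val ((redDataBar N A).red ⟨t, hgc.1⟩)).order) :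
    genusRR Kbar (FN N) = genusRR 𝕜 (FresBar N A) := by
  have : CharP 𝕜 ℓ := charP_residue A (Fact.out : ℓ.Prime) hA
  have : IsGen Kbar (jF N) := Fermat.Agent.S24_helper62.isGen_jF N
  have : IsAlgClosed 𝕜 := Fermat.Agent.GJ.ResidueAlgClosed.isAlgClosed_residueField A
  exact genusRR_eq_of_primitives ℓ (jF N) (redDataBar N A)
    (Val.unramified A (modularFunctionFieldBar N) (hasGaussFrac_bar N A))
    hgc.1 hgc.2 hdeg β hβ hbr (FresBar N A).val hord

/-- **good reduction preserves the Riemann–Roch genus of `X₀(M)`**. -/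
theorem genusRR_FN_eq_FresBar {ℓ : ℕ} (hℓ : ℓ.Prime) (hℓM : ¬ ℓ ∣ N) (h2 : ℓ = 2 → 3 ∣ N)
    (h3 : ℓ = 3 → 2 ∣ N) (hA : A.LiesOverPrime ℓ) :
    genusRR Kbar (FN N) = genusRR 𝕜 (FresBar N A) := by
  have : Fact ℓ.Prime := ⟨hℓ⟩
  have hcp : CharP (IsLocalRing.ResidueField A) ℓ := charP_residue A hℓ hA
  have hdegj := Fermat.Agent.GJ.J1.K18Modular.hdeg_jF N A hℓM hA
  by_cases e2 : ℓ = 2
  · have hd := h2 e2
    subst e2
    have h3' : (3 : IsLocalRing.ResidueField A) ≠ 0 := three_ne_zero_of_charP_two A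
    exact genusRR_eq_of_chart_bar N A hA (isGaussChart_tThreeF N A hd)
      (hdeg_tThreeF N A hd h3' _ hdegj) ((-27 : ℤ) : A) (res_neg27_ne_zero hℓ (by norm_num))
      (placeBranch_tThreeF_A N A hd) (hord_tThreeF N A hd hℓ _)
  by_cases e3 : ℓ = 3
  · have hd := h3 e3
    subst e3
    have h2' : (2 : IsLocalRing.ResidueField A) ≠ 0 := two_ne_zero_of_charP_three A
    exact genusRR_eq_of_chart_bar N A hA (isGaussChart_tTwoF N A hd)
      (hdeg_tTwoF N A hd h2' _ hdegj) ((-64 : ℤ) : A) (res_neg64_ne_zero hℓ (by norm_num))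
      (placeBranch_tTwoF_A N A hd) (hord_tTwoF N A hd hℓ _)
  · exact genusRR_eq_of_chart_bar N A hA (isGaussChart_jF N A) hdegj ((1728 : ℤ) : A)
      (res_1728_ne_zero hℓ e2 e3) (placeBranch_jF_A N A) (hord_jF N A hℓ _)

end Concrete

end Fermat.Agent.GL.Genus
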