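/-
GATE-L / GENUS-RED (helper60), part 2: **the numerical upper bound on the number of nodes**.

`ℓ ∥ N = N' ℓ`, `A | ℓ`.  helper92's `DeltaNodes.card_nodes_le` bounds `#nodes J'` by
`1 + g(F_N) - 2 g(F̃)` in terms of the Riemann–Roch genera; here

* `genusRR_FresBar_mul_eq` : `g(F̃) = genusRR 𝕜 (FresBar (N' ℓ) A) = genusRR Kbar (FN N')`
  (`FresBar (N' ℓ) A = FresBar N' A`, helper15, + good reduction at level `N'`, `GenusRedJ1`);
* `twelve_mul_card_nodes_le` : `12 · #nodes J' ≤ (ℓ - 1) ψ(N')` when `N'` has no elliptic points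
  (`GenusFN.node_count_genusRR'`).
-/
import Fermat.Agent.GL.Genus.GenusRedJ1
import Fermat.Agent.GL.Genus.GenusFN
import Fermat.Agent.GK.QS.BTildeFull
import Fermat.Agent.GK.Flat.DeltaNodes

set_option autoImplicit false
set_option linter.unusedSectionVars false

noncomputable section

namespace Fermat.Agent.GL.Genus

open AlgebraicCurve IntermediateField Module ModularCurve
open Fermat.Agent.S24 Fermat.Agent.RRh45 Fermat.Agent.GJ.J1 Fermat.Agent.GJ.J1.Val
  Fermat.Agent.GJ.J1.InstGen Fermat.Agent.GK.QS Fermat.Agent.GK.FrobGlue Fermat.Agent.GK.CuspSep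
  Fermat.Agent.GK.AL

/-- the Riemann–Roch genus only depends on the intermediate field. -/
theorem genusRR_congr_intermediateField {k L : Type*} [Field k] [Field L] [Algebra k L]
    {S T : IntermediateField k L} (h : S = T)
    [FiniteResidues k S] [HasPrincipalDivisors k S] [Nonempty (Place k S)]
    [FiniteResidues k T] [HasPrincipalDivisors k T] [Nonempty (Place k T)] :
    genusRR k S = genusRR k T := by
  subst h
  rfl

section Concrete

variable (N' : ℕ) [NeZero N'] (ℓ : ℕ) [hℓ : Fact ℓ.Prime] [NeZero ℓ]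
variable (A : ValuationSubring Kbar) (h : ExactDvd ℓ (N' * ℓ))
variable (hℓN : ¬ ℓ ∣ N') (hA : A.LiesOverPrime ℓ)

local notation "𝕜" => IsLocalRing.ResidueField A

variable [FiniteResidues Kbar (FN N')] [HasPrincipalDivisors Kbar (FN N')]
  [Nonempty (Place Kbar (FN N'))]
  [FiniteResidues (IsLocalRing.ResidueField A) (FresBar (N' * ℓ) A)]
  [HasPrincipalDivisors (IsLocalRing.ResidueField A) (FresBar (N' * ℓ) A)]
  [Nonempty (Place (IsLocalRing.ResidueField A) (FresBar (N' * ℓ) A))]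

include h hℓN hA in
/-- **the genus of the reduction** at level `N' ℓ` is the genus of `X₀(N')`. -/
theorem genusRR_FresBar_mul_eq (h2 : ℓ = 2 → 3 ∣ N') (h3 : ℓ = 3 → 2 ∣ N') :
    genusRR 𝕜 (FresBar (N' * ℓ) A) = genusRR Kbar (FN N') := by
  have e := FresBar_mul_eq N' ℓ A h hℓN hA
  have hgen : IsGen 𝕜 (tauF N' A) := Fermat.Agent.GK.SymDegree.isGen_tauF N' A
  have : IsAlgClosed 𝕜 := Fermat.Agent.GJ.ResidueAlgClosed.isAlgClosed_residueField A
  have : FiniteResidues 𝕜 (FresBar N' A) := Fermat.Agent.GJ.FF.finiteResidues (tauF N' A)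
  have : HasPrincipalDivisors 𝕜 (FresBar N' A) :=
    Fermat.Agent.GJ.FF.PrincipalOf.hasPrincipalDivisors_gen (tauF N' A)
  have : Nonempty (Place 𝕜 (FresBar N' A)) := Fermat.Agent.GJ.FF.nonempty_place (tauF N' A)
  rw [genusRR_congr_intermediateField e]
  exact (genusRR_FN_eq_FresBar N' A hℓ.out hℓN h2 h3 hA).symm

variable [FiniteResidues Kbar (FN (N' * ℓ))] [HasPrincipalDivisors Kbar (FN (N' * ℓ))]
  [Nonempty (Place Kbar (FN (N' * ℓ)))]

include hℓN hA in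
/-- **the upper bound on the number of nodes, genus of the reduction evaluated**:
`#Σ' + 2 g(F_{N'}) ≤ g(F_{N' ℓ}) + 1`. -/
theorem card_nodes_add_le (h2 : ℓ = 2 → 3 ∣ N') (h3 : ℓ = 3 → 2 ∣ N')
    {J' : Ideal (CRing N' A)}
    (hBT : BT N' ℓ A h = gluedAlg (psiC N' ℓ A hℓN hA) J')
    (hcount : finrank 𝕜 ((CRing N' A × CRing N' A) ⧸
      Subalgebra.toSubmodule (gluedAlg (psiC N' ℓ A hℓN hA) J')) = (nodes J').ncard) :
    ((nodes J').ncard : ℤ) + 2 * genusRR Kbar (FN N') ≤ genusRR Kbar (FN (N' * ℓ)) + 1 := by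
  have h1 := Fermat.Agent.GK.DeltaNodes.card_nodes_le N' ℓ A h hℓN hA hBT hcount
  rwa [genusRR_FresBar_mul_eq N' ℓ A h hℓN hA h2 h3] at h1

include hℓN hA in
/-- **`12 · #nodes ≤ (ℓ - 1) ψ(N')`** when `N'` has no elliptic points. -/
theorem twelve_mul_card_nodes_le (h2 : ℓ = 2 → 3 ∣ N') (h3 : ℓ = 3 → 2 ∣ N')
    (hν2 : nuTwo N' = 0) (hν3 : nuThree N' = 0) {J' : Ideal (CRing N' A)}
    (hBT : BT N' ℓ A h = gluedAlg (psiC N' ℓ A hℓN hA) J')
    (hcount : finrank 𝕜 ((CRing N' A × CRing N' A) ⧸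
      Subalgebra.toSubmodule (gluedAlg (psiC N' ℓ A hℓN hA) J')) = (nodes J').ncard) :
    12 * ((nodes J').ncard : ℤ) ≤ ((ℓ : ℤ) - 1) * (dedekindPsi N' : ℤ) := by
  have h1 := card_nodes_add_le N' ℓ A h hℓN hA h2 h3 hBT hcount
  have h4 := node_count_genusRR' (q := ℓ) (M := N') hℓ.out hℓN hν2 hν3
  linarith

end Concrete

section ConcreteFree

variable (N' : ℕ) [NeZero N'] (ℓ : ℕ) [hℓ : Fact ℓ.Prime] [NeZero ℓ]
variable (A : ValuationSubring Kbar) (h : ExactDvd ℓ (N' * ℓ))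
variable (hℓN : ¬ ℓ ∣ N') (hA : A.LiesOverPrime ℓ)

local notation "𝕜" => IsLocalRing.ResidueField A

include hℓN hA in
/-- **`12 · #nodes ≤ (ℓ - 1) ψ(N')`**, no instance binders (all nine are discharged by the
generators `j`, `τ`). -/
theorem twelve_mul_card_nodes_le' (h2 : ℓ = 2 → 3 ∣ N') (h3 : ℓ = 3 → 2 ∣ N')
    (hν2 : nuTwo N' = 0) (hν3 : nuThree N' = 0) {J' : Ideal (CRing N' A)}
    (hBT : BT N' ℓ A h = gluedAlg (psiC N' ℓ A hℓN hA) J')
    (hcount : finrank 𝕜 ((CRing N' A × CRing N' A) ⧸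
      Subalgebra.toSubmodule (gluedAlg (psiC N' ℓ A hℓN hA) J')) = (nodes J').ncard) :
    12 * ((nodes J').ncard : ℤ) ≤ ((ℓ : ℤ) - 1) * (dedekindPsi N' : ℤ) := by
  have : IsAlgClosed 𝕜 := Fermat.Agent.GJ.ResidueAlgClosed.isAlgClosed_residueField A
  have hg1 : IsGen Kbar (jF N') := Fermat.Agent.S24_helper62.isGen_jF N'
  have hg2 : IsGen Kbar (jF (N' * ℓ)) := Fermat.Agent.S24_helper62.isGen_jF (N' * ℓ)
  have hg3 : IsGen 𝕜 (tauF (N' * ℓ) A) := Fermat.Agent.GK.SymDegree.isGen_tauF (N' * ℓ) A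
  have : FiniteResidues Kbar (FN N') := Fermat.Agent.GJ.FF.finiteResidues (jF N')
  have : HasPrincipalDivisors Kbar (FN N') :=
    Fermat.Agent.GJ.FF.PrincipalOf.hasPrincipalDivisors_gen (jF N')
  have : Nonempty (Place Kbar (FN N')) := Fermat.Agent.GJ.FF.nonempty_place (jF N')
  have : FiniteResidues Kbar (FN (N' * ℓ)) := Fermat.Agent.GJ.FF.finiteResidues (jF (N' * ℓ))
  have : HasPrincipalDivisors Kbar (FN (N' * ℓ)) :=
    Fermat.Agent.GJ.FF.PrincipalOf.hasPrincipalDivisors_gen (jF (N' * ℓ))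
  have : Nonempty (Place Kbar (FN (N' * ℓ))) := Fermat.Agent.GJ.FF.nonempty_place (jF (N' * ℓ))
  have : FiniteResidues 𝕜 (FresBar (N' * ℓ) A) :=
    Fermat.Agent.GJ.FF.finiteResidues (tauF (N' * ℓ) A)
  have : HasPrincipalDivisors 𝕜 (FresBar (N' * ℓ) A) :=
    Fermat.Agent.GJ.FF.PrincipalOf.hasPrincipalDivisors_gen (tauF (N' * ℓ) A)
  have : Nonempty (Place 𝕜 (FresBar (N' * ℓ) A)) :=
    Fermat.Agent.GJ.FF.nonempty_place (tauF (N' * ℓ) A)
  exact twelve_mul_card_nodes_le N' ℓ A h hℓN hA h2 h3 hν2 hν3 hBT hcount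

end ConcreteFree

end Fermat.Agent.GL.Genus
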