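/-
GATE-L / GATE-M (helper60): the UPPER bound on the number of nodes at a GENERAL level, in terms of
the prelude's `genusFormula` (no auxiliary prime, no hypothesis on elliptic points):

  `#nodes J' + 2 · genusFormula N' ≤ genusFormula (N' ℓ) + 1`     (`ℓ ∤ N'`, `A | ℓ`),

i.e. `#Σ - 1 ≤ g(N' ℓ) - 2 g(N')` with `2 g(M) = rank parabolicHoms ℤ Γ₀(M) ℤ`
(`GJ/J2/ZStruct.finrank_parabolicHoms_int_eq`).  From helper92's `DeltaNodes.card_nodes_le`,
`GenusRed.genusRR_FresBar_mul_eq` and `GenusFN.genusRR_FN`.  Instance-free.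
-/
import Fermat.Agent.GL.Genus.GenusRed

set_option autoImplicit false
set_option linter.unusedSectionVars false

noncomputable section

namespace Fermat.Agent.GL.Genus

open AlgebraicCurve IntermediateField Module ModularCurve
open Fermat.Agent.S24 Fermat.Agent.RRh45 Fermat.Agent.GJ.J1 Fermat.Agent.GJ.J1.Val
  Fermat.Agent.GJ.J1.InstGen Fermat.Agent.GK.QS Fermat.Agent.GK.FrobGlue Fermat.Agent.GK.CuspSep
  Fermat.Agent.GK.AL

variable (N' : ℕ) [NeZero N'] (ℓ : ℕ) [hℓ : Fact ℓ.Prime] [NeZero ℓ]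
variable (A : ValuationSubring Kbar) (h : ExactDvd ℓ (N' * ℓ))
variable (hℓN : ¬ ℓ ∣ N') (hA : A.LiesOverPrime ℓ)

local notation "𝕜" => IsLocalRing.ResidueField A

include hℓN hA in
/-- **`#nodes + 2 g(N') ≤ g(N' ℓ) + 1`** with `g = genusFormula`, at EVERY level `N'` prime to `ℓ`
(tame-chart side conditions only for `ℓ ∈ {2, 3}`). -/
theorem card_nodes_add_genusFormula_le (h2 : ℓ = 2 → 3 ∣ N') (h3 : ℓ = 3 → 2 ∣ N')
    {J' : Ideal (CRing N' A)}
    (hBT : BT N' ℓ A h = gluedAlg (psiC N' ℓ A hℓN hA) J')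
    (hcount : finrank 𝕜 ((CRing N' A × CRing N' A) ⧸
      Subalgebra.toSubmodule (gluedAlg (psiC N' ℓ A hℓN hA) J')) = (nodes J').ncard) :
    ((nodes J').ncard : ℚ) + 2 * genusFormula N' ≤ genusFormula (N' * ℓ) + 1 := by
  have : IsAlgClosed 𝕜 := Fermat.Agent.GJ.ResidueAlgClosed.isAlgClosed_residueField A
  have hg1 : IsGen Kbar (jF N') := Fermat.Agent.S24_helper62.isGen_jF N'
  have hg2 : IsGen Kbar (jF (N' * ℓ)) := Fermat.Agent.S24_helper62.isGen_jF (N' * ℓ)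
  have hg3 : IsGen 𝕜 (tauF (N' * ℓ) A) := Fermat.Agent.GK.SymDegree.isGen_tauF (N' * ℓ) A
  have : FiniteResidues Kbar (FN N') := Fermat.Agent.GJ.FF.finiteResidues (jF N')
  have : HasPrincipalDivisors Kbar (FN N') :=
    Fermat.Agent.GJ.FF.PrincipalOf.hasPrincipalDivisors_gen (jF N')
  have : Nonempty (Place Kbar (FN N')) := Fermat.Agent.GJ.FF.nonempty_place (jF N')
  have : FiniteResidues Kbar (FN (N' * ℓ)) := Fermat.Agent.GJ.FF.finiteResidues (jF (N' * ℓ))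
  have : HasPrincipalDivisors Kbar (FN (N' * ℓ)) :=
    Fermat.Agent.GJ.FF.PrincipalOf.hasPrincipalDivisors_gen (jF (N' * ℓ))
  have : Nonempty (Place Kbar (FN (N' * ℓ))) := Fermat.Agent.GJ.FF.nonempty_place (jF (N' * ℓ))
  have : FiniteResidues 𝕜 (FresBar (N' * ℓ) A) :=
    Fermat.Agent.GJ.FF.finiteResidues (tauF (N' * ℓ) A)
  have : HasPrincipalDivisors 𝕜 (FresBar (N' * ℓ) A) :=
    Fermat.Agent.GJ.FF.PrincipalOf.hasPrincipalDivisors_gen (tauF (N' * ℓ) A)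
  have : Nonempty (Place 𝕜 (FresBar (N' * ℓ) A)) :=
    Fermat.Agent.GJ.FF.nonempty_place (tauF (N' * ℓ) A)
  have h1 := card_nodes_add_le N' ℓ A h hℓN hA h2 h3 hBT hcount
  have e1 : (genusRR Kbar (FN (N' * ℓ)) : ℚ) = genusFormula (N' * ℓ) := genusRR_FN (N' * ℓ)
  have e2 : (genusRR Kbar (FN N') : ℚ) = genusFormula N' := genusRR_FN N'
  rw [← e1, ← e2]
  exact_mod_cast h1

include hℓN hA in
/-- the same in the closed form of `GenusIneq.node_count_eq` (mass formula with elliptic weights):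
`#nodes ≤ (ℓ-1) ψ(N')/12 + (2 - ν₂(ℓ)) ν₂(N')/4 + (2 - ν₃(ℓ)) ν₃(N')/3`. -/
theorem card_nodes_le_mass (h2 : ℓ = 2 → 3 ∣ N') (h3 : ℓ = 3 → 2 ∣ N')
    {J' : Ideal (CRing N' A)}
    (hBT : BT N' ℓ A h = gluedAlg (psiC N' ℓ A hℓN hA) J')
    (hcount : finrank 𝕜 ((CRing N' A × CRing N' A) ⧸
      Subalgebra.toSubmodule (gluedAlg (psiC N' ℓ A hℓN hA) J')) = (nodes J').ncard) :
    ((nodes J').ncard : ℚ) ≤ ((ℓ : ℚ) - 1) * (dedekindPsi N' : ℚ) / 12
        + (2 - (nuTwo ℓ : ℚ)) * (nuTwo N' : ℚ) / 4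
        + (2 - (nuThree ℓ : ℚ)) * (nuThree N' : ℚ) / 3 := by
  have h1 := card_nodes_add_genusFormula_le N' ℓ A h hℓN hA h2 h3 hBT hcount
  have h4 := Fermat.Agent.GK.Flat.GenusIneq.node_count_eq (q := ℓ) (N' := N') hℓ.out hℓN
  rw [Nat.mul_comm ℓ N'] at h4
  linarith

end Fermat.Agent.GL.Genus
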